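import Fermat.Agent.LT.H701.Core
import Fermat.Prelude.Def_LanglandsTunnell_ExplicitLift

/-!
# Row LT, block IDENT (helper701): the complex representation `R = ι ∘ Ψ`

For a section `Ψ : GL₂(𝔽₃) →* GL₂(ℤ[√-2])` of the reduction `red` and a ring homomorphism
`ι : ℤ[√-2] →+* ℂ`:

* `iota_injective_h701`: `ι` is injective;
* `rhom_neg_one_h701`: `R (-1) = -1`;
* `det_rhom_h701`: `det R(g) = 1` if `det g = 1`, and `-1` otherwise;
* `trace_rhom_h701`: `tr R(g) = ι (tr Ψ(g))`.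
-/

set_option autoImplicit false

open Matrix FLT.ExplicitLift

namespace Fermat.Agent.LT.H701

theorem iota_injective_h701 (ι : ℤ√(-2) →+* ℂ) : Function.Injective ι := by
  have h := Zsqrtd.lift_injective (R := ℂ) (d := -2) (Zsqrtd.lift.symm ι) (by
    intro n hn
    nlinarith [sq_nonneg n])
  rwa [Equiv.apply_symm_apply] at h

/-- An element of `ℤ[√-2]` whose image in `ℂ` has the square of an integer `n` is `n` or `-n`. -/
theorem eq_or_eq_neg_of_sq_h701 (ι : ℤ√(-2) →+* ℂ) (x : ℤ√(-2)) (n : ℤ)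
    (h : ι x * ι x = (n : ℂ) * n) : x = (n : ℤ√(-2)) ∨ x = -(n : ℤ√(-2)) := by
  have h1 : (ι x - n) * (ι x + n) = 0 := by linear_combination h
  rcases mul_eq_zero.mp h1 with h2 | h2
  · left
    apply iota_injective_h701 ι
    rw [map_intCast]
    exact sub_eq_zero.mp h2
  · right
    apply iota_injective_h701 ι
    rw [map_neg, map_intCast]
    exact eq_neg_of_add_eq_zero_left h2

/-- The complex representation `R = ι ∘ Ψ`. -/
noncomputable def rhom_h701 (ι : ℤ√(-2) →+* ℂ)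
    (Ψ : GL (Fin 2) (ZMod 3) →* GL (Fin 2) (ℤ√(-2))) :
    GL (Fin 2) (ZMod 3) →* GL (Fin 2) ℂ :=
  (Matrix.GeneralLinearGroup.map ι).comp Ψ

theorem val_rhom_h701 (ι : ℤ√(-2) →+* ℂ) (Ψ : GL (Fin 2) (ZMod 3) →* GL (Fin 2) (ℤ√(-2)))
    (g : GL (Fin 2) (ZMod 3)) :
    (rhom_h701 ι Ψ g).val = (Ψ g).val.map ι := rfl

theorem trace_rhom_h701 (ι : ℤ√(-2) →+* ℂ) (Ψ : GL (Fin 2) (ZMod 3) →* GL (Fin 2) (ℤ√(-2)))
    (g : GL (Fin 2) (ZMod 3)) :
    (rhom_h701 ι Ψ g).val.trace = ι ((Ψ g).val.trace) := by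
  rw [val_rhom_h701, AddMonoidHom.map_trace]

theorem det_rhom_eq_h701 (ι : ℤ√(-2) →+* ℂ) (Ψ : GL (Fin 2) (ZMod 3) →* GL (Fin 2) (ℤ√(-2)))
    (g : GL (Fin 2) (ZMod 3)) :
    (rhom_h701 ι Ψ g).val.det = ι ((Ψ g).val.det) := by
  rw [val_rhom_h701, RingHom.map_det]
  rfl

section red

variable (Ψ : GL (Fin 2) (ZMod 3) →* GL (Fin 2) (ℤ√(-2)))
  (hΨ : ∀ g, Matrix.GeneralLinearGroup.map red (Ψ g) = g)

include hΨ

theorem red_val_h701 (g : GL (Fin 2) (ZMod 3)) : (Ψ g).val.map red = g.val := by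
  have := congrArg Units.val (hΨ g)
  exact this

theorem red_trace_h701 (g : GL (Fin 2) (ZMod 3)) :
    red ((Ψ g).val.trace) = g.val.trace := by
  rw [AddMonoidHom.map_trace, red_val_h701 Ψ hΨ]

theorem red_det_h701 (g : GL (Fin 2) (ZMod 3)) :
    red ((Ψ g).val.det) = g.val.det := by
  rw [RingHom.map_det]
  show ((Ψ g).val.map red).det = _
  rw [red_val_h701 Ψ hΨ]

/-- If `det R(x)` squares to one, it is the lift of `det x`. -/
theorem det_rhom_of_sq_h701 (ι : ℤ√(-2) →+* ℂ) (x : GL (Fin 2) (ZMod 3))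
    (h : (rhom_h701 ι Ψ x).val.det * (rhom_h701 ι Ψ x).val.det = 1) :
    (x.val.det = 1 → (Ψ x).val.det = 1) ∧ (x.val.det = -1 → (Ψ x).val.det = -1) := by
  rw [det_rhom_eq_h701] at h
  have h' : ι (Ψ x).val.det * ι (Ψ x).val.det = ((1 : ℤ) : ℂ) * ((1 : ℤ) : ℂ) := by
    rw [h]; simp
  have hred := red_det_h701 Ψ hΨ x
  rcases eq_or_eq_neg_of_sq_h701 ι _ 1 h' with h1 | h1
  · rw [h1] at hred ⊢
    refine ⟨fun _ => by simp, fun hx => ?_⟩
    rw [hx] at hred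
    simp only [Int.cast_one, map_one] at hred
    exact absurd hred (by decide)
  · rw [h1] at hred ⊢
    refine ⟨fun hx => ?_, fun _ => by simp⟩
    rw [hx] at hred
    simp only [Int.cast_one, map_neg, map_one] at hred
    exact absurd hred (by decide)

theorem rhom_neg_one_h701 (ι : ℤ√(-2) →+* ℂ) : rhom_h701 ι Ψ (-1) = -1 := by
  have hZ : (rhom_h701 ι Ψ (-1)).val * (rhom_h701 ι Ψ (-1)).val = 1 := by
    rw [← Units.val_mul, ← map_mul, neg_one_sq_h701, map_one]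
    rfl
  have hdd : (rhom_h701 ι Ψ (-1)).val.det * (rhom_h701 ι Ψ (-1)).val.det = 1 := by
    rw [← Matrix.det_mul, hZ, Matrix.det_one]
  have hdet1 : ((-1 : GL (Fin 2) (ZMod 3)) : Matrix (Fin 2) (Fin 2) (ZMod 3)).det = 1 := by
    decide
  have hd : (Ψ (-1)).val.det = 1 := (det_rhom_of_sq_h701 Ψ hΨ ι (-1) hdd).1 hdet1
  have hdC : (rhom_h701 ι Ψ (-1)).val.det = 1 := by
    rw [det_rhom_eq_h701, hd, map_one]
  have hCH := sq_eq_h701 (rhom_h701 ι Ψ (-1)).val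
  rw [hZ, hdC, one_smul] at hCH
  -- trace of both sides
  have htr := congrArg Matrix.trace hCH
  rw [Matrix.trace_sub, Matrix.trace_smul, Matrix.trace_one] at htr
  simp only [Fintype.card_fin, smul_eq_mul, Nat.cast_ofNat] at htr
  rw [trace_rhom_h701] at htr
  have h' : ι (Ψ (-1)).val.trace * ι (Ψ (-1)).val.trace = ((2 : ℤ) : ℂ) * ((2 : ℤ) : ℂ) := by
    push_cast
    linear_combination -htr
  have hred := red_trace_h701 Ψ hΨ (-1)
  have htr1 : ((-1 : GL (Fin 2) (ZMod 3)) : Matrix (Fin 2) (Fin 2) (ZMod 3)).trace = 1 := by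
    decide
  rw [htr1] at hred
  have ht : (Ψ (-1)).val.trace = -2 := by
    rcases eq_or_eq_neg_of_sq_h701 ι _ 2 h' with h1 | h1
    · rw [h1] at hred
      simp only [Int.cast_ofNat, map_ofNat] at hred
      exact absurd hred (by decide)
    · rw [h1]; simp
  apply Units.ext
  apply eq_neg_one_of_sq_h701 (two_ne_zero) _ hZ
  rw [trace_rhom_h701, ht, map_neg, map_ofNat]

/-- The determinant of `R`. -/
theorem det_rhom_h701 (ι : ℤ√(-2) →+* ℂ) (g : GL (Fin 2) (ZMod 3)) :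
    (rhom_h701 ι Ψ g).val.det =
      if Matrix.GeneralLinearGroup.det g = 1 then 1 else -1 := by
  have hm1 : ((-1 : GL (Fin 2) ℂ) : Matrix (Fin 2) (Fin 2) ℂ).det = 1 := by
    simp [Matrix.det_fin_two]
  have hsq : ∀ x : GL (Fin 2) (ZMod 3), x * x = -1 →
      (rhom_h701 ι Ψ x).val.det * (rhom_h701 ι Ψ x).val.det = 1 := by
    intro x hx
    rw [← Matrix.det_mul, ← Units.val_mul, ← map_mul, hx, rhom_neg_one_h701 Ψ hΨ ι, hm1]
  let χ : GL (Fin 2) (ZMod 3) →* ℂˣ := Matrix.GeneralLinearGroup.det.comp (rhom_h701 ι Ψ)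
  have hχ : ∀ x, ((χ x : ℂˣ) : ℂ) = (rhom_h701 ι Ψ x).val.det := fun x => rfl
  have hi : χ gi_h701 = 1 := by
    apply Units.ext
    rw [hχ, det_rhom_eq_h701,
      (det_rhom_of_sq_h701 Ψ hΨ ι gi_h701 (hsq _ gi_mul_gi_h701)).1 (by decide), map_one]
    rfl
  have hj : χ gj_h701 = 1 := by
    apply Units.ext
    rw [hχ, det_rhom_eq_h701,
      (det_rhom_of_sq_h701 Ψ hΨ ι gj_h701 (hsq _ gj_mul_gj_h701)).1 (by decide), map_one]
    rfl
  have hd : χ gd_h701 = -1 := by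
    apply Units.ext
    have hdd : (rhom_h701 ι Ψ gd_h701).val.det * (rhom_h701 ι Ψ gd_h701).val.det = 1 := by
      rw [← Matrix.det_mul, ← Units.val_mul, ← map_mul, gd_mul_gd_h701, map_one]
      simp
    rw [hχ, det_rhom_eq_h701,
      (det_rhom_of_sq_h701 Ψ hΨ ι gd_h701 hdd).2 (by decide), map_neg, map_one]
    rfl
  have key := hom_eq_h701 χ hi hj (Commute.all _ _) g
  by_cases hg : Matrix.GeneralLinearGroup.det g = 1
  · rw [if_pos hg, ← hχ, key.1 hg]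
    rfl
  · rw [if_neg hg, ← hχ, key.2 hg, hd]
    rfl

end red

end Fermat.Agent.LT.H701
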