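import Fermat.Agent.LT.H701.Ident
import Fermat.Agent.S48.Top.ResultOfCore
import Fermat.Agent.S48.Red1.Top

/-!
# Row LT, block IDENT (helper701): `LTB.IdentC`, unconditionally

`identC_h701 : LTB.IdentC`, from `identC_of_s48_h701` and the PLAIN chain behind the landed S48
(`S48.Top.result_of_core S48.Red1.core1Top`, both on main).  With `LTB.top47` the frozen S47 now
depends on `LTB.WallC` only.
-/

set_option autoImplicit false

namespace Fermat.Agent.LT.H701

/-- The statement of S48, from the plain chain on main. -/
theorem s48Statement_h701 : S48Statement_h701 :=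
  fun N _ ε f hf hT =>
    Fermat.Agent.S48.Top.result_of_core Fermat.Agent.S48.Red1.core1Top N ε f hf hT

/-- **IDENT**, unconditionally. -/
theorem identC_h701 : LTB.IdentC := identC_of_s48_h701 s48Statement_h701

/-- The frozen S47 from the wall alone. -/
theorem s47_of_wallC_h701 (hW : LTB.WallC) : LTB.S47Statement := LTB.top47 identC_h701 hW

end Fermat.Agent.LT.H701
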