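import Mathlib

/-!
# Row LT, block IDENT (helper701): the finite group `GL₂(𝔽₃)`

Explicit elements `i, j` (generators of `Q8`), `u` (unipotent), `d = diag(-1, 1)`, the brute-force
facts

* `mem_closure_of_q8_h701`: `Q8 = {g | det g = 1 ∧ g ^ 4 = 1} ⊆ ⟨i, j⟩`;
* `exists_pow_q8_h701`: every `g` of determinant one is `q * u ^ (-k)` with `q ∈ Q8`;
* `det_mul_gd_h701`: `det (g * d) = 1` when `det g ≠ 1`;

and the consequence `hom_eq_h701`: a homomorphism `χ` from `GL₂(𝔽₃)` to any group that kills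
`i, j` and for which `χ d`, `χ u` commute is trivial on `SL₂(𝔽₃)` and constant on its complement.
-/

set_option autoImplicit false

open Matrix

namespace Fermat.Agent.LT.H701

/-- The matrix `i`. -/
def gi_h701 : GL (Fin 2) (ZMod 3) := ⟨!![0, 2; 1, 0], !![0, 1; 2, 0], by decide, by decide⟩

/-- The matrix `j`. -/
def gj_h701 : GL (Fin 2) (ZMod 3) := ⟨!![1, 1; 1, 2], !![2, 2; 2, 1], by decide, by decide⟩

/-- The unipotent matrix `u`. -/
def gu_h701 : GL (Fin 2) (ZMod 3) := ⟨!![1, 1; 0, 1], !![1, 2; 0, 1], by decide, by decide⟩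

/-- The diagonal matrix `d = diag(-1, 1)`. -/
def gd_h701 : GL (Fin 2) (ZMod 3) := ⟨!![2, 0; 0, 1], !![2, 0; 0, 1], by decide, by decide⟩

theorem gi_mul_gi_h701 : gi_h701 * gi_h701 = -1 := Units.ext (by decide)

theorem gj_mul_gj_h701 : gj_h701 * gj_h701 = -1 := Units.ext (by decide)

theorem gi_mul_gj_h701 : gi_h701 * gj_h701 = -1 * (gj_h701 * gi_h701) := Units.ext (by decide)

theorem gd_mul_gd_h701 : gd_h701 * gd_h701 = 1 := Units.ext (by decide)

theorem gu_comm_h701 : gu_h701 = gd_h701 * gu_h701 * gd_h701⁻¹ * gu_h701⁻¹ :=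
  Units.ext (by decide)

theorem neg_one_sq_h701 : (-1 : GL (Fin 2) (ZMod 3)) * -1 = 1 := Units.ext (by decide)

theorem det_neg_one_h701 : Matrix.GeneralLinearGroup.det (-1 : GL (Fin 2) (ZMod 3)) = 1 :=
  Units.ext (by decide)

theorem neg_one_pow_four_h701 : (-1 : GL (Fin 2) (ZMod 3)) ^ 4 = 1 := Units.ext (by decide)

theorem val_eq_of_h701 (g : GL (Fin 2) (ZMod 3)) :
    (g : Matrix (Fin 2) (Fin 2) (ZMod 3)) = !![g.val 0 0, g.val 0 1; g.val 1 0, g.val 1 1] :=
  Matrix.eta_fin_two _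

theorem bf1_h701 : ∀ a b c e : ZMod 3, a * e - b * c = 1 →
    (!![a, b; c, e] : Matrix (Fin 2) (Fin 2) (ZMod 3)) ^ 4 = 1 →
    (!![a, b; c, e] : Matrix (Fin 2) (Fin 2) (ZMod 3)) = (1 : GL (Fin 2) (ZMod 3)).val ∨
    !![a, b; c, e] = gi_h701.val ∨ !![a, b; c, e] = (gi_h701 * gi_h701).val ∨
    !![a, b; c, e] = (gi_h701 * gi_h701 * gi_h701).val ∨
    !![a, b; c, e] = gj_h701.val ∨ !![a, b; c, e] = (gj_h701 * gj_h701 * gj_h701).val ∨
    !![a, b; c, e] = (gi_h701 * gj_h701).val ∨ !![a, b; c, e] = (gj_h701 * gi_h701).val := by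
  decide

theorem bf2_h701 : ∀ a b c e : ZMod 3, a * e - b * c = 1 →
    (!![a, b; c, e] : Matrix (Fin 2) (Fin 2) (ZMod 3)) ^ 4 = 1 ∨
    ((!![a, b; c, e] : Matrix (Fin 2) (Fin 2) (ZMod 3)) * gu_h701.val) ^ 4 = 1 ∨
    ((!![a, b; c, e] : Matrix (Fin 2) (Fin 2) (ZMod 3)) * (gu_h701 * gu_h701).val) ^ 4 = 1 := by
  decide

theorem bf3_h701 : ∀ x : (ZMod 3)ˣ, x ≠ 1 → x * Matrix.GeneralLinearGroup.det gd_h701 = 1 := by
  decide

theorem det_val_h701 (g : GL (Fin 2) (ZMod 3)) (h : Matrix.GeneralLinearGroup.det g = 1) :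
    g.val 0 0 * g.val 1 1 - g.val 0 1 * g.val 1 0 = 1 := by
  have h1 : ((Matrix.GeneralLinearGroup.det g : (ZMod 3)ˣ) : ZMod 3) = 1 := by rw [h]; rfl
  rw [Matrix.GeneralLinearGroup.val_det_apply, Matrix.det_fin_two] at h1
  exact h1

/-- `Q8 ⊆ ⟨i, j⟩`. -/
theorem mem_closure_of_q8_h701 (g : GL (Fin 2) (ZMod 3))
    (hdet : Matrix.GeneralLinearGroup.det g = 1) (h4 : g ^ 4 = 1) :
    g ∈ Subgroup.closure ({gi_h701, gj_h701} : Set (GL (Fin 2) (ZMod 3))) := by
  have hi : gi_h701 ∈ Subgroup.closure ({gi_h701, gj_h701} : Set (GL (Fin 2) (ZMod 3))) :=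
    Subgroup.subset_closure (by simp)
  have hj : gj_h701 ∈ Subgroup.closure ({gi_h701, gj_h701} : Set (GL (Fin 2) (ZMod 3))) :=
    Subgroup.subset_closure (by simp)
  have h4' : (!![g.val 0 0, g.val 0 1; g.val 1 0, g.val 1 1] :
      Matrix (Fin 2) (Fin 2) (ZMod 3)) ^ 4 = 1 := by
    rw [← val_eq_of_h701, ← Units.val_pow_eq_pow_val, h4]
    rfl
  have key := bf1_h701 _ _ _ _ (by linear_combination det_val_h701 g hdet) h4'
  rw [← val_eq_of_h701] at key
  rcases key with h | h | h | h | h | h | h | h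
  · rw [Units.ext h]; exact Subgroup.one_mem _
  · rw [Units.ext h]; exact hi
  · rw [Units.ext h]; exact Subgroup.mul_mem _ hi hi
  · rw [Units.ext h]; exact Subgroup.mul_mem _ (Subgroup.mul_mem _ hi hi) hi
  · rw [Units.ext h]; exact hj
  · rw [Units.ext h]; exact Subgroup.mul_mem _ (Subgroup.mul_mem _ hj hj) hj
  · rw [Units.ext h]; exact Subgroup.mul_mem _ hi hj
  · rw [Units.ext h]; exact Subgroup.mul_mem _ hj hi

/-- Every element of determinant one is in `Q8 · ⟨u⟩`. -/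
theorem exists_pow_q8_h701 (g : GL (Fin 2) (ZMod 3))
    (hdet : Matrix.GeneralLinearGroup.det g = 1) :
    ∃ k : ℕ, (g * gu_h701 ^ k) ^ 4 = 1 := by
  have key := bf2_h701 _ _ _ _ (by linear_combination det_val_h701 g hdet :
    g.val 0 0 * g.val 1 1 - g.val 0 1 * g.val 1 0 = 1)
  rw [← val_eq_of_h701] at key
  rcases key with h | h | h
  · refine ⟨0, Units.ext ?_⟩
    rw [pow_zero, mul_one, Units.val_pow_eq_pow_val, h]
    rfl
  · refine ⟨1, Units.ext ?_⟩
    rw [pow_one, Units.val_pow_eq_pow_val, Units.val_mul, h]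
    rfl
  · refine ⟨2, Units.ext ?_⟩
    rw [pow_two, Units.val_pow_eq_pow_val, Units.val_mul, h]
    rfl

theorem det_gu_h701 : Matrix.GeneralLinearGroup.det gu_h701 = 1 := Units.ext (by decide)

theorem det_mul_gd_h701 (g : GL (Fin 2) (ZMod 3))
    (hdet : Matrix.GeneralLinearGroup.det g ≠ 1) :
    Matrix.GeneralLinearGroup.det (g * gd_h701) = 1 := by
  rw [map_mul]
  exact bf3_h701 _ hdet

/-- A homomorphism from `GL₂(𝔽₃)` that kills `i`, `j` and for which the images of `d` and `u`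
commute is trivial on `SL₂(𝔽₃)` and constant on the complement. -/
theorem hom_eq_h701 {H : Type*} [Group H] (χ : GL (Fin 2) (ZMod 3) →* H)
    (hi : χ gi_h701 = 1) (hj : χ gj_h701 = 1) (hc : Commute (χ gd_h701) (χ gu_h701))
    (g : GL (Fin 2) (ZMod 3)) :
    (Matrix.GeneralLinearGroup.det g = 1 → χ g = 1) ∧
      (Matrix.GeneralLinearGroup.det g ≠ 1 → χ g = χ gd_h701) := by
  have hcl : Subgroup.closure ({gi_h701, gj_h701} : Set (GL (Fin 2) (ZMod 3))) ≤ χ.ker := by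
    rw [Subgroup.closure_le]
    intro x hx
    rcases hx with hx | hx
    · rw [hx]; exact MonoidHom.mem_ker.mpr hi
    · rw [Set.mem_singleton_iff.mp hx]; exact MonoidHom.mem_ker.mpr hj
  have hu : χ gu_h701 = 1 := by
    have h := congrArg χ gu_comm_h701
    rw [map_mul, map_mul, map_mul, map_inv, map_inv, hc.eq, mul_inv_cancel_right,
      mul_inv_cancel] at h
    exact h
  have hsl : ∀ x : GL (Fin 2) (ZMod 3), Matrix.GeneralLinearGroup.det x = 1 → χ x = 1 := by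
    intro x hx
    obtain ⟨k, hk⟩ := exists_pow_q8_h701 x hx
    have hdet' : Matrix.GeneralLinearGroup.det (x * gu_h701 ^ k) = 1 := by
      rw [map_mul, map_pow, hx, det_gu_h701, one_pow, one_mul]
    have := MonoidHom.mem_ker.mp (hcl (mem_closure_of_q8_h701 _ hdet' hk))
    rw [map_mul, map_pow, hu, one_pow, mul_one] at this
    exact this
  refine ⟨hsl g, fun hg => ?_⟩
  have h1 := hsl _ (det_mul_gd_h701 g hg)
  have h2 : χ gd_h701 * χ gd_h701 = 1 := by rw [← map_mul, gd_mul_gd_h701, map_one]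
  rw [map_mul] at h1
  calc χ g = χ g * (χ gd_h701 * χ gd_h701) := by rw [h2, mul_one]
    _ = (χ g * χ gd_h701) * χ gd_h701 := by rw [mul_assoc]
    _ = χ gd_h701 := by rw [h1, one_mul]

end Fermat.Agent.LT.H701
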