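import Fermat.Agent.LT.H701.Quat
import Fermat.Agent.LT.H701.GL23

/-!
# Row LT, block IDENT (helper701): the Clifford/Schur core for `GL₂(𝔽₃)`

`core_h701`: two homomorphisms `φ₁ φ₂ : GL₂(𝔽₃) →* GL₂(ℂ)` with `φ₁ (-1) = φ₂ (-1) = -1` (two
"genuine" two-dimensional representations) have the same trace up to the sign character
`g ↦ s ^ [det g ≠ 1]`, `s ∈ {1, -1}`.
-/

set_option autoImplicit false

open Matrix

namespace Fermat.Agent.LT.H701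

theorem det_gi_h701 : Matrix.GeneralLinearGroup.det gi_h701 = 1 := Units.ext (by decide)

theorem det_gj_h701 : Matrix.GeneralLinearGroup.det gj_h701 = 1 := Units.ext (by decide)

theorem gi_pow_four_h701 : gi_h701 ^ 4 = 1 := Units.ext (by decide)

theorem gj_pow_four_h701 : gj_h701 ^ 4 = 1 := Units.ext (by decide)

/-- Conjugation-invariance of the condition defining `Q8`. -/
theorem q8_conj_h701 (g x : GL (Fin 2) (ZMod 3)) (hdet : Matrix.GeneralLinearGroup.det x = 1)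
    (h4 : x ^ 4 = 1) :
    Matrix.GeneralLinearGroup.det (g⁻¹ * x * g) = 1 ∧ (g⁻¹ * x * g) ^ 4 = 1 := by
  constructor
  · rw [map_mul, map_mul, map_inv, hdet, mul_one, inv_mul_cancel]
  · have : g⁻¹ * x * g = g⁻¹ * x * g⁻¹⁻¹ := by rw [inv_inv]
    rw [this, conj_pow, h4, mul_one, inv_inv, inv_mul_cancel]

/-- A genuine two-dimensional representation of `GL₂(𝔽₃)` is conjugate to one in standard form on
`i`, `j`. -/
theorem exists_conj_std_h701 (φ : GL (Fin 2) (ZMod 3) →* GL (Fin 2) ℂ) (h : φ (-1) = -1) :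
    ∃ ψ : GL (Fin 2) (ZMod 3) →* GL (Fin 2) ℂ,
      (∀ g, (ψ g).val.trace = (φ g).val.trace) ∧ (∀ g, (ψ g).val.det = (φ g).val.det) ∧
        (ψ gi_h701).val = stdD_h701 ∧ (ψ gj_h701).val = stdE_h701 := by
  have hA : (φ gi_h701).val * (φ gi_h701).val = -1 := by
    rw [← Units.val_mul, ← map_mul, gi_mul_gi_h701, h]
    rfl
  have hB : (φ gj_h701).val * (φ gj_h701).val = -1 := by
    rw [← Units.val_mul, ← map_mul, gj_mul_gj_h701, h]
    rfl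
  have hAB : (φ gi_h701).val * (φ gj_h701).val = -((φ gj_h701).val * (φ gi_h701).val) := by
    rw [← Units.val_mul, ← map_mul, gi_mul_gj_h701, map_mul, map_mul, h]
    simp
  obtain ⟨P, hP, hPA, hPB⟩ := exists_stdForm_h701 _ _ hA hB hAB
  let Pu : GL (Fin 2) ℂ := Matrix.GeneralLinearGroup.mkOfDetNeZero P hP
  have hPu : (Pu : Matrix (Fin 2) (Fin 2) ℂ) = P := rfl
  have hinv : (Pu⁻¹ : GL (Fin 2) ℂ).val * P = 1 := by
    rw [← hPu, ← Units.val_mul, inv_mul_cancel]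
    rfl
  refine ⟨(MulAut.conj Pu⁻¹).toMonoidHom.comp φ, fun g => ?_, fun g => ?_, ?_, ?_⟩
  · simp only [MonoidHom.coe_comp, MulEquiv.coe_toMonoidHom, Function.comp_apply,
      MulAut.conj_apply, inv_inv, Units.val_mul]
    rw [Matrix.trace_mul_cycle, ← Units.val_mul, mul_inv_cancel, Units.val_one, Matrix.one_mul]
  · simp only [MonoidHom.coe_comp, MulEquiv.coe_toMonoidHom, Function.comp_apply,
      MulAut.conj_apply, inv_inv, Units.val_mul]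
    rw [Matrix.det_mul, Matrix.det_mul, mul_comm, ← mul_assoc, ← Matrix.det_mul,
      ← Units.val_mul, mul_inv_cancel, Units.val_one, Matrix.det_one, one_mul]
  · simp only [MonoidHom.coe_comp, MulEquiv.coe_toMonoidHom, Function.comp_apply,
      MulAut.conj_apply, inv_inv, Units.val_mul]
    rw [hPu, Matrix.mul_assoc, hPA, ← Matrix.mul_assoc, hinv, Matrix.one_mul]
  · simp only [MonoidHom.coe_comp, MulEquiv.coe_toMonoidHom, Function.comp_apply,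
      MulAut.conj_apply, inv_inv, Units.val_mul]
    rw [hPu, Matrix.mul_assoc, hPB, ← Matrix.mul_assoc, hinv, Matrix.one_mul]

/-- A unit whose matrix is scalar is central. -/
theorem central_of_scalar_h701 (c : GL (Fin 2) ℂ) (t : ℂ)
    (hc : c.val = t • (1 : Matrix (Fin 2) (Fin 2) ℂ)) (y : GL (Fin 2) ℂ) : c * y = y * c := by
  apply Units.ext
  rw [Units.val_mul, Units.val_mul, hc]
  simp

/-- **Clifford/Schur core.** -/
theorem core_h701 (φ₁ φ₂ : GL (Fin 2) (ZMod 3) →* GL (Fin 2) ℂ)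
    (h₁ : φ₁ (-1) = -1) (h₂ : φ₂ (-1) = -1) :
    ∃ s : ℂ, (s = 1 ∨ s = -1) ∧ ∀ g : GL (Fin 2) (ZMod 3),
      (φ₁ g).val.trace =
        (if Matrix.GeneralLinearGroup.det g = 1 then 1 else s) * (φ₂ g).val.trace ∧
      (φ₁ g).val.det = (φ₂ g).val.det := by
  obtain ⟨ψ₁, ht₁, hd₁, hi₁, hj₁⟩ := exists_conj_std_h701 φ₁ h₁
  obtain ⟨ψ₂, ht₂, hd₂, hi₂, hj₂⟩ := exists_conj_std_h701 φ₂ h₂
  have hi : ψ₁ gi_h701 = ψ₂ gi_h701 := Units.ext (hi₁.trans hi₂.symm)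
  have hj : ψ₁ gj_h701 = ψ₂ gj_h701 := Units.ext (hj₁.trans hj₂.symm)
  have hcl : Subgroup.closure ({gi_h701, gj_h701} : Set (GL (Fin 2) (ZMod 3))) ≤
      ψ₁.eqLocus ψ₂ := by
    rw [Subgroup.closure_le]
    intro x hx
    rcases hx with hx | hx
    · rw [hx]; exact hi
    · rw [Set.mem_singleton_iff.mp hx]; exact hj
  have hq8 : ∀ y : GL (Fin 2) (ZMod 3), Matrix.GeneralLinearGroup.det y = 1 → y ^ 4 = 1 →
      ψ₁ y = ψ₂ y := fun y hy hy4 => hcl (mem_closure_of_q8_h701 y hy hy4)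
  -- the comparison cocycle
  have hcomm : ∀ (g x : GL (Fin 2) (ZMod 3)), Matrix.GeneralLinearGroup.det x = 1 → x ^ 4 = 1 →
      (ψ₁ g * (ψ₂ g)⁻¹) * ψ₂ x = ψ₂ x * (ψ₁ g * (ψ₂ g)⁻¹) := by
    intro g x hx hx4
    obtain ⟨hy, hy4⟩ := q8_conj_h701 g x hx hx4
    have e := hq8 _ hy hy4
    have ex := hq8 x hx hx4
    rw [map_mul, map_mul, map_mul, map_mul, map_inv, map_inv, ex] at e
    -- e : (ψ₁ g)⁻¹ * ψ₂ x * ψ₁ g = (ψ₂ g)⁻¹ * ψ₂ x * ψ₂ g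
    have e2 : ψ₂ x * ψ₁ g = ψ₁ g * ((ψ₂ g)⁻¹ * ψ₂ x * ψ₂ g) := by
      rw [← e]
      group
    calc (ψ₁ g * (ψ₂ g)⁻¹) * ψ₂ x
        = ψ₁ g * ((ψ₂ g)⁻¹ * ψ₂ x * ψ₂ g) * (ψ₂ g)⁻¹ := by group
      _ = ψ₂ x * ψ₁ g * (ψ₂ g)⁻¹ := by rw [← e2]
      _ = ψ₂ x * (ψ₁ g * (ψ₂ g)⁻¹) := by group
  have hscal : ∀ g : GL (Fin 2) (ZMod 3),
      (ψ₁ g * (ψ₂ g)⁻¹).val =
        (ψ₁ g * (ψ₂ g)⁻¹).val 0 0 • (1 : Matrix (Fin 2) (Fin 2) ℂ) := by
    intro g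
    apply scalar_of_commute_std_h701
    · have := congrArg Units.val (hcomm g gi_h701 det_gi_h701 gi_pow_four_h701)
      rw [Units.val_mul (ψ₁ g * (ψ₂ g)⁻¹) (ψ₂ gi_h701),
        Units.val_mul (ψ₂ gi_h701) (ψ₁ g * (ψ₂ g)⁻¹), hi₂] at this
      exact this
    · have := congrArg Units.val (hcomm g gj_h701 det_gj_h701 gj_pow_four_h701)
      rw [Units.val_mul (ψ₁ g * (ψ₂ g)⁻¹) (ψ₂ gj_h701),
        Units.val_mul (ψ₂ gj_h701) (ψ₁ g * (ψ₂ g)⁻¹), hj₂] at this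
      exact this
  have hcent : ∀ (g : GL (Fin 2) (ZMod 3)) (y : GL (Fin 2) ℂ),
      (ψ₁ g * (ψ₂ g)⁻¹) * y = y * (ψ₁ g * (ψ₂ g)⁻¹) :=
    fun g y => central_of_scalar_h701 _ _ (hscal g) y
  let c : GL (Fin 2) (ZMod 3) →* GL (Fin 2) ℂ :=
    MonoidHom.mk' (fun g => ψ₁ g * (ψ₂ g)⁻¹) (by
      intro a b
      show ψ₁ (a * b) * (ψ₂ (a * b))⁻¹ = ψ₁ a * (ψ₂ a)⁻¹ * (ψ₁ b * (ψ₂ b)⁻¹)
      rw [map_mul, map_mul, _root_.mul_inv_rev]
      calc ψ₁ a * ψ₁ b * ((ψ₂ b)⁻¹ * (ψ₂ a)⁻¹)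
          = ψ₁ a * ((ψ₁ b * (ψ₂ b)⁻¹) * (ψ₂ a)⁻¹) := by group
        _ = ψ₁ a * ((ψ₂ a)⁻¹ * (ψ₁ b * (ψ₂ b)⁻¹)) := by rw [hcent b]
        _ = ψ₁ a * (ψ₂ a)⁻¹ * (ψ₁ b * (ψ₂ b)⁻¹) := by group)
  have hc : ∀ g, c g = ψ₁ g * (ψ₂ g)⁻¹ := fun g => rfl
  have key := hom_eq_h701 c (by rw [hc, hi, mul_inv_cancel]) (by rw [hc, hj, mul_inv_cancel])
    (by rw [hc, hc]; exact hcent gd_h701 _)
  set s : ℂ := (c gd_h701).val 0 0 with hs
  have hsval : (c gd_h701).val = s • (1 : Matrix (Fin 2) (Fin 2) ℂ) := hscal gd_h701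
  have hs2 : s * s = 1 := by
    have h1 : c gd_h701 * c gd_h701 = 1 := by rw [← map_mul, gd_mul_gd_h701, map_one]
    have h2 := congrArg Units.val h1
    rw [Units.val_mul, hsval] at h2
    have h3 := congrFun (congrFun h2 0) 0
    simpa using h3
  refine ⟨s, ?_, fun g => ?_⟩
  · have : (s - 1) * (s + 1) = 0 := by linear_combination hs2
    rcases mul_eq_zero.mp this with h | h
    · exact Or.inl (sub_eq_zero.mp h)
    · exact Or.inr (eq_neg_of_add_eq_zero_left h)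
  · rw [← ht₁, ← ht₂, ← hd₁, ← hd₂]
    have hψ : ψ₁ g = c g * ψ₂ g := by rw [hc, inv_mul_cancel_right]
    by_cases hg : Matrix.GeneralLinearGroup.det g = 1
    · rw [if_pos hg, one_mul, hψ, (key g).1 hg, one_mul]
      exact ⟨rfl, rfl⟩
    · rw [if_neg hg, hψ, (key g).2 hg, Units.val_mul, hsval, Matrix.smul_mul, Matrix.one_mul,
        Matrix.trace_smul, smul_eq_mul, Matrix.det_smul]
      refine ⟨rfl, ?_⟩
      simp only [Fintype.card_fin]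
      rw [pow_two, hs2, one_mul]

end Fermat.Agent.LT.H701
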