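import Fermat.Agent.LT.H670.Twist
import Fermat.Agent.LT.H701.Psi
import Fermat.Prelude.Def_LanglandsTunnell_WeightOneRealizationCarriers

/-!
# Row LT, block IDENT (helper701): integrality, twist and depletion

`eigen_h701`: a weight-one form `f` on `Γ₁(N)` with `a₁ = 1`, the Hecke relations for `ε` at the
primes `p ∤ N`, `ε(p) = χ₋₃(p)` and `a_p(f) = w(p) ι(t p)` at the primes `p ∤ 3N`, where
`w(p) = 1` for `p ≡ 1 mod 3` and `w(p) = s ∈ {1, -1}` otherwise, gives a formal eigensystem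
`c : ℕ → ℤ[√-2]` of character `χ₋₃` away from `N' = N (3N)²`, realized in weight one on
`Γ₁(N')`, with `c p = t p` at all primes `p ∤ 3N`.
-/

set_option autoImplicit false

open EisensteinWeightOne CongruenceSubgroup ModularFormClass

noncomputable section

namespace Fermat.Agent.LT.H701

theorem chiNegThree_mul_h701 (a b : ℕ) :
    chiNegThree (a * b) = chiNegThree a * chiNegThree b := by
  unfold chiNegThree
  have ha : a % 3 < 3 := Nat.mod_lt _ (by norm_num)
  have hb : b % 3 < 3 := Nat.mod_lt _ (by norm_num)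
  rw [Nat.mul_mod]
  interval_cases h1 : a % 3 <;> interval_cases h2 : b % 3 <;> simp

theorem chiNegThree_sq_h701 {a : ℕ} (h : ¬ 3 ∣ a) : chiNegThree a * chiNegThree a = 1 := by
  unfold chiNegThree
  have ha : a % 3 < 3 := Nat.mod_lt _ (by norm_num)
  have h0 : a % 3 ≠ 0 := fun h' => h (Nat.dvd_of_mod_eq_zero h')
  interval_cases h1 : a % 3 <;> simp at h0 ⊢

theorem chiNegThree_one_h701 : chiNegThree 1 = 1 := by decide

/-- The multiplier: the trivial character or `χ₋₃`, depleted at the primes dividing `3N`. -/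
def mult_h701 (N : ℕ) (s : ℂ) (n : ℕ) : ℂ :=
  if n.Coprime (3 * N) then (if s = 1 then 1 else ((chiNegThree n : ℤ) : ℂ)) else 0

theorem mult_of_not_coprime_h701 (N : ℕ) (s : ℂ) {n : ℕ} (h : ¬ n.Coprime (3 * N)) :
    mult_h701 N s n = 0 := if_neg h

theorem mult_one_h701 (N : ℕ) (s : ℂ) : mult_h701 N s 1 = 1 := by
  unfold mult_h701
  rw [if_pos (Nat.coprime_one_left _)]
  split_ifs
  · rfl
  · rw [chiNegThree_one_h701]; simp

theorem mult_mul_h701 (N : ℕ) (s : ℂ) (a b : ℕ) :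
    mult_h701 N s (a * b) = mult_h701 N s a * mult_h701 N s b := by
  unfold mult_h701
  by_cases ha : a.Coprime (3 * N)
  · by_cases hb : b.Coprime (3 * N)
    · rw [if_pos ha, if_pos hb, if_pos (Nat.Coprime.mul_left ha hb)]
      split_ifs
      · simp
      · rw [chiNegThree_mul_h701]; push_cast; rfl
    · rw [if_neg hb, if_neg (fun h => hb (Nat.Coprime.coprime_mul_left h)), mul_zero]
  · rw [if_neg ha, if_neg (fun h => ha (Nat.Coprime.coprime_mul_right h)), zero_mul]

theorem not_three_dvd_of_coprime_h701 {N n : ℕ} (h : n.Coprime (3 * N)) : ¬ 3 ∣ n := by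
  intro h3
  have : (3 : ℕ) ∣ Nat.gcd n (3 * N) := Nat.dvd_gcd h3 (dvd_mul_right 3 N)
  rw [Nat.Coprime] at h
  rw [h] at this
  exact absurd this (by norm_num)

theorem mult_sq_h701 (N : ℕ) (s : ℂ) {n : ℕ} (h : n.Coprime (3 * N)) :
    mult_h701 N s n * mult_h701 N s n = 1 := by
  unfold mult_h701
  rw [if_pos h]
  split_ifs
  · simp
  · have := chiNegThree_sq_h701 (not_three_dvd_of_coprime_h701 h)
    have h2 : (((chiNegThree n * chiNegThree n : ℤ)) : ℂ) = 1 := by rw [this]; simp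
    push_cast at h2
    exact h2

/-- The weight `w(p)`. -/
def wt_h701 (s : ℂ) (p : ℕ) : ℂ := if p % 3 = 1 then 1 else s

theorem mult_mul_wt_h701 (N : ℕ) (s : ℂ) (hs : s = 1 ∨ s = -1) {p : ℕ}
    (h : p.Coprime (3 * N)) : mult_h701 N s p * wt_h701 s p = 1 := by
  unfold mult_h701 wt_h701
  rw [if_pos h]
  have h3 := not_three_dvd_of_coprime_h701 h
  have hp : p % 3 < 3 := Nat.mod_lt _ (by norm_num)
  have h0 : p % 3 ≠ 0 := fun h' => h3 (Nat.dvd_of_mod_eq_zero h')
  by_cases hs1 : s = 1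
  · rw [if_pos hs1, hs1]
    split_ifs <;> simp
  · rw [if_neg hs1]
    have hs' : s = -1 := hs.resolve_left hs1
    unfold chiNegThree
    interval_cases h1 : p % 3
    · exact absurd rfl h0
    · simp
    · simp [hs']

theorem coprime_of_prime_not_dvd_h701 {N p : ℕ} (hp : p.Prime) (h : ¬ p ∣ 3 * N) :
    p.Coprime (3 * N) := (Nat.Prime.coprime_iff_not_dvd hp).mpr h

theorem prime_dvd_level_iff_h701 {N p : ℕ} (hp : p.Prime) :
    p ∣ N * (3 * N) ^ 2 ↔ p ∣ 3 * N := by
  constructor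
  · intro h
    rcases (Nat.Prime.dvd_mul hp).mp h with h | h
    · exact Dvd.dvd.mul_left h 3
    · exact hp.dvd_of_dvd_pow h
  · intro h
    exact Dvd.dvd.mul_left (dvd_pow h two_ne_zero) N

/-- **Integrality, twist and depletion.** -/
theorem eigen_h701 (N : ℕ) [NeZero N] (ε : DirichletCharacter ℂ N) (f : CuspForm (Gamma1 N) 1)
    (ι : ℤ√(-2) →+* ℂ) (hf₁ : qCoeff f 1 = 1)
    (hT : ∀ p : ℕ, p.Prime → ¬ p ∣ N → ∀ n : ℕ,
      qCoeff f (p * n) + ε (p : ZMod N) * (if p ∣ n then qCoeff f (n / p) else 0) =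
        qCoeff f p * qCoeff f n)
    (s : ℂ) (hs : s = 1 ∨ s = -1) (t : ℕ → ℤ√(-2))
    (ht : ∀ p : ℕ, p.Prime → ¬ p ∣ 3 * N →
      qCoeff f p = wt_h701 s p * ι (t p) ∧ ε (p : ZMod N) = ((chiNegThree p : ℤ) : ℂ)) :
    ∃ c : ℕ → ℤ√(-2),
      FormalHecke.IsEigensystem
        (fun ℓ => if ℓ ∣ N * (3 * N) ^ 2 then 0 else ((chiNegThree ℓ : ℤ) : ℤ√(-2))) c ∧
      CuspForm.IsWeightOneChiNegThreeRealized (N * (3 * N) ^ 2) c ∧
      ∀ p : ℕ, p.Prime → ¬ p ∣ 3 * N → c p = t p := by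
  classical
  have hι := iota_injective_h701 ι
  have h3N : NeZero (3 * N) := ⟨mul_ne_zero (by norm_num) (NeZero.ne N)⟩
  -- the twisted and depleted coefficients
  set b : ℕ → ℂ := fun n => mult_h701 N s n * qCoeff f n with hb
  have hb_prime : ∀ p : ℕ, p.Prime → ¬ p ∣ 3 * N → b p = ι (t p) := by
    intro p hp hpN
    rw [hb]
    beta_reduce
    rw [(ht p hp hpN).1, ← mul_assoc,
      mult_mul_wt_h701 N s hs (coprime_of_prime_not_dvd_h701 hp hpN), one_mul]
  have hb_zero : ∀ n : ℕ, ¬ n.Coprime (3 * N) → b n = 0 := by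
    intro n hn
    rw [hb]
    beta_reduce
    rw [mult_of_not_coprime_h701 N s hn, zero_mul]
  have hb_one : b 1 = 1 := by
    rw [hb]
    beta_reduce
    rw [mult_one_h701, hf₁, one_mul]
  -- Hecke relation at the good primes
  have hb_hecke : ∀ ℓ : ℕ, ℓ.Prime → ¬ ℓ ∣ 3 * N → ∀ n : ℕ,
      b (ℓ * n) + ((chiNegThree ℓ : ℤ) : ℂ) * (if ℓ ∣ n then b (n / ℓ) else 0) = b ℓ * b n := by
    intro ℓ hℓ hℓN n
    have hℓN' : ¬ ℓ ∣ N := fun h => hℓN (Dvd.dvd.mul_left h 3)
    have key := hT ℓ hℓ hℓN' n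
    rw [(ht ℓ hℓ hℓN).2] at key
    have hcop := coprime_of_prime_not_dvd_h701 hℓ hℓN
    rw [hb]
    beta_reduce
    by_cases hd : ℓ ∣ n
    · rw [if_pos hd] at key ⊢
      obtain ⟨k, rfl⟩ := hd
      rw [Nat.mul_div_cancel_left k hℓ.pos] at key ⊢
      rw [mult_mul_h701 N s ℓ (ℓ * k), mult_mul_h701 N s ℓ k]
      have hsq := mult_sq_h701 N s hcop
      linear_combination (mult_h701 N s ℓ * mult_h701 N s ℓ * mult_h701 N s k) * key -
        ((chiNegThree ℓ : ℤ) : ℂ) * mult_h701 N s k * qCoeff f k * hsq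
    · rw [if_neg hd] at key ⊢
      rw [mult_mul_h701 N s ℓ n]
      linear_combination (mult_h701 N s ℓ * mult_h701 N s n) * key
  -- Hecke relation at the bad primes
  have hb_bad : ∀ ℓ : ℕ, ℓ.Prime → ℓ ∣ 3 * N → ∀ n : ℕ, b (ℓ * n) = b ℓ * b n := by
    intro ℓ hℓ hℓN n
    have h1 : ¬ ℓ.Coprime (3 * N) := fun hc =>
      hℓ.one_lt.ne' (Nat.eq_one_of_dvd_coprimes hc dvd_rfl hℓN)
    have h2 : ¬ (ℓ * n).Coprime (3 * N) := fun hc =>
      hℓ.one_lt.ne' (Nat.eq_one_of_dvd_coprimes hc (dvd_mul_right ℓ n) hℓN)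
    rw [hb_zero _ h1, hb_zero _ h2, zero_mul]
  -- integrality
  have hint : ∀ n : ℕ, ∃ x : ℤ√(-2), ι x = b n := by
    intro n
    induction n using Nat.strong_induction_on with
    | _ n ih =>
      rcases Nat.lt_or_ge n 2 with hn | hn
      · interval_cases n
        · refine ⟨0, ?_⟩
          rw [map_zero, hb_zero]
          intro hc
          rw [Nat.coprime_zero_left] at hc
          have : 3 ∣ 1 := hc ▸ dvd_mul_right 3 N
          exact absurd this (by norm_num)
        · exact ⟨1, by rw [map_one, hb_one]⟩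
      · obtain ⟨ℓ, hℓ, k, hk⟩ : ∃ ℓ : ℕ, ℓ.Prime ∧ ∃ k, n = ℓ * k :=
          ⟨n.minFac, Nat.minFac_prime (by omega), Nat.minFac_dvd n⟩
        have hkpos : 0 < k := by
          rcases Nat.eq_zero_or_pos k with h | h
          · rw [h, mul_zero] at hk; omega
          · exact h
        have hklt : k < n := by
          rw [hk]
          exact lt_mul_of_one_lt_left hkpos hℓ.one_lt
        by_cases hbad : ℓ ∣ 3 * N
        · refine ⟨0, ?_⟩
          rw [map_zero, hk, hb_bad _ hℓ hbad, hb_zero ℓ, zero_mul]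
          exact fun hc => hℓ.one_lt.ne' (Nat.eq_one_of_dvd_coprimes hc dvd_rfl hbad)
        · have key := hb_hecke _ hℓ hbad k
          obtain ⟨xk, hxk⟩ := ih k hklt
          by_cases hd : ℓ ∣ k
          · rw [if_pos hd] at key
            have hlt : k / ℓ < n :=
              lt_of_le_of_lt (Nat.div_le_self _ _) hklt
            obtain ⟨y, hy⟩ := ih _ hlt
            refine ⟨t ℓ * xk - ((chiNegThree ℓ : ℤ) : ℤ√(-2)) * y, ?_⟩
            rw [map_sub, map_mul, map_mul, map_intCast, hxk, hy, ← hb_prime _ hℓ hbad, hk]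
            linear_combination -key
          · rw [if_neg hd, mul_zero, add_zero] at key
            refine ⟨t ℓ * xk, ?_⟩
            rw [map_mul, hxk, ← hb_prime _ hℓ hbad, hk]
            exact key.symm
  choose c hc using hint
  refine ⟨c, ⟨?_, ?_⟩, ?_, ?_⟩
  · apply hι
    rw [hc, hb_one, map_one]
  · intro ℓ hℓ n
    beta_reduce
    apply hι
    by_cases hbad : ℓ ∣ 3 * N
    · rw [if_pos ((prime_dvd_level_iff_h701 hℓ).mpr hbad), zero_mul, add_zero, map_mul, hc, hc,
        hc]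
      exact hb_bad ℓ hℓ hbad n
    · rw [if_neg (fun h => hbad ((prime_dvd_level_iff_h701 hℓ).mp h)), map_add, map_mul,
        map_intCast, map_mul, hc, hc, hc]
      have key := hb_hecke ℓ hℓ hbad n
      by_cases hd : ℓ ∣ n
      · rw [if_pos hd] at key ⊢
        rw [hc]
        exact key
      · rw [if_neg hd] at key ⊢
        rw [map_zero]
        exact key
  · -- realization
    obtain ⟨g, hg⟩ := Fermat.Agent.LT.H670.exists_twist_Gamma1 N (3 * N) 1 f
      (fun x => if IsUnit x then (if s = 1 then 1 else ((chiNegThree x.val : ℤ) : ℂ)) else 0)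
    refine ⟨ι, g, fun n => ?_⟩
    rw [hg n, hc, hb]
    beta_reduce
    congr 1
    unfold mult_h701
    by_cases hn : n.Coprime (3 * N)
    · rw [if_pos hn, if_pos ((ZMod.isUnit_iff_coprime n (3 * N)).mpr hn)]
      by_cases hs1 : s = 1
      · rw [if_pos hs1, if_pos hs1]
      · rw [if_neg hs1, if_neg hs1, ZMod.val_natCast]
        have : chiNegThree (n % (3 * N)) = chiNegThree n := by
          unfold chiNegThree
          rw [Nat.mod_mod_of_dvd n (dvd_mul_right 3 N)]
        rw [this]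
    · rw [if_neg hn, if_neg (fun hu => hn ((ZMod.isUnit_iff_coprime n (3 * N)).mp hu))]
  · intro p hp hpN
    apply hι
    rw [hc, hb_prime p hp hpN]

end Fermat.Agent.LT.H701

end
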