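import Fermat.Agent.LT.H701.Eigen
import Fermat.Agent.Lib.Cheb.Chebotarev
import Fermat.Agent.Lib.Cheb.H956.Consumers
import Fermat.Agent.S29.H872.Cyclo
import Fermat.Prelude.Def_GaloisRep_ModThreeCyclotomic
import Fermat.Prelude.Def_FLTPrelim_Ramification

/-!
# Row LT, block IDENT (helper701): the Galois side

`gal_h701`: let `ρ : G_ℚ → GL₂(𝔽₃)` be continuous, surjective, of determinant the mod-3 cyclotomic
character, `Ψ` a section of the reduction, `f` a weight-one form whose `a_p` equals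
`ι (tr Ψ(ρ Frob_p))` at the primes `p ∤ 3N` with `ρ(Frob_p) ∈ Q8`, and `r` the Deligne--Serre
representation of `f` (finite level, trace and determinant at Frobenius).  Then there is a sign
`s ∈ {1, -1}` with `a_p(f) = w(p) ι (tr Ψ(ρ Frob_p))` and `ε(p) = χ₋₃(p)` at ALL primes `p ∤ 3N`.
-/

set_option autoImplicit false

open Matrix FLT.ExplicitLift EisensteinWeightOne WeierstrassCurve CongruenceSubgroup
open ModularFormClass
open scoped MatrixGroups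

noncomputable section

namespace Fermat.Agent.LT.H701

local notation "Γℚ" => (AlgebraicClosure ℚ ≃ₐ[ℚ] AlgebraicClosure ℚ)

/-- A homomorphism factoring through a finite level has values of finite order. -/
theorem exists_pow_eq_one_h701 {M : Type} [Group M] (r : Γℚ →* M)
    (hr : GaloisFactorsThroughFiniteLevel r) (σ : Γℚ) : ∃ n : ℕ, 0 < n ∧ r σ ^ n = 1 := by
  obtain ⟨L, hL, hfix⟩ := hr
  haveI := hL
  let e : ℕ → (L →ₐ[ℚ] AlgebraicClosure ℚ) := fun k =>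
    ((σ ^ k : Γℚ) : AlgebraicClosure ℚ →ₐ[ℚ] AlgebraicClosure ℚ).comp L.val
  have key : ∀ a b : ℕ, a < b → e a = e b → ∃ n : ℕ, 0 < n ∧ r σ ^ n = 1 := by
    intro a b hab he
    refine ⟨b - a, Nat.sub_pos_of_lt hab, ?_⟩
    rw [← map_pow]
    apply hfix
    intro x hx
    have h1 : (σ ^ a) x = (σ ^ b) x := by
      have := congrArg (fun φ : L →ₐ[ℚ] AlgebraicClosure ℚ => φ ⟨x, hx⟩) he
      exact this
    have h2 : σ ^ b = σ ^ a * σ ^ (b - a) := by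
      rw [← pow_add, Nat.add_sub_cancel' hab.le]
    rw [h2, AlgEquiv.mul_apply] at h1
    exact ((σ ^ a).injective h1).symm
  obtain ⟨a, b, hab, he⟩ := Finite.exists_ne_map_eq_of_infinite e
  rcases Nat.lt_or_gt_of_ne hab with h | h
  · exact key a b h he
  · exact key b a h he.symm

/-- A homomorphism factoring through a finite level has an open kernel. -/
theorem isOpen_ker_h701 {M : Type} [Group M] (r : Γℚ →* M)
    (hr : GaloisFactorsThroughFiniteLevel r) : IsOpen (r.ker : Set Γℚ) := by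
  obtain ⟨L, hL, hfix⟩ := hr
  haveI := hL
  have hle : L.fixingSubgroup ≤ r.ker := by
    intro σ hσ
    rw [MonoidHom.mem_ker]
    apply hfix
    intro x hx
    exact (IntermediateField.mem_fixingSubgroup_iff L σ).mp hσ x hx
  exact Subgroup.isOpen_mono hle L.fixingSubgroup_isOpen

/-- The mod-3 cyclotomic character at a Frobenius element over `p ≠ 3`. -/
theorem modThree_frob_h701 {p : ℕ} (hp : p.Prime) (hp3 : p ≠ 3)
    (A : ValuationSubring (AlgebraicClosure ℚ)) (hA : A.LiesOverPrime p) (σ : Γℚ)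
    (hσ : A.IsFrobeniusAt σ p) :
    ((modThreeCyclotomicChar σ : (ZMod 3)ˣ) : ZMod 3) = (p : ZMod 3) := by
  haveI : Fact (Nat.Prime 3) := ⟨Nat.prime_three⟩
  have h := Fermat.Agent.S29.H872.cycloChar_frobenius 3 hp hp3 A hA σ hσ
  exact h

theorem unit_eq_one_iff_h701 (u : (ZMod 3)ˣ) (p : ℕ) (h : (u : ZMod 3) = (p : ZMod 3)) :
    u = 1 ↔ p % 3 = 1 := by
  constructor
  · intro hu
    rw [hu, Units.val_one] at h
    have h2 : ((1 : ℕ) : ZMod 3) = (p : ZMod 3) := by rw [← h]; simp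
    have := (ZMod.natCast_eq_natCast_iff' 1 p 3).mp h2
    omega
  · intro hp
    apply Units.ext
    rw [h, Units.val_one]
    have h2 : ((p : ℕ) : ZMod 3) = ((1 : ℕ) : ZMod 3) :=
      (ZMod.natCast_eq_natCast_iff' p 1 3).mpr (by omega)
    rw [h2]
    simp

theorem chiNegThree_of_prime_h701 {p : ℕ} (hp : p.Prime) (hp3 : p ≠ 3) :
    ((chiNegThree p : ℤ) : ℂ) = if p % 3 = 1 then 1 else -1 := by
  have h3 : ¬ 3 ∣ p := fun h => hp3 ((Nat.prime_dvd_prime_iff_eq Nat.prime_three hp).mp h).symm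
  have hlt : p % 3 < 3 := Nat.mod_lt _ (by norm_num)
  have h0 : p % 3 ≠ 0 := fun h' => h3 (Nat.dvd_of_mod_eq_zero h')
  unfold chiNegThree
  interval_cases h1 : p % 3
  · exact absurd rfl h0
  · simp
  · simp

/-- **The Galois side of IDENT.** -/
theorem gal_h701 (ρ : Γℚ →* GL (Fin 2) (ZMod 3)) (Ψ : GL (Fin 2) (ZMod 3) →* GL (Fin 2) (ℤ√(-2)))
    (hρ : Continuous ρ) (hsurj : Function.Surjective ρ)
    (hdet : ∀ σ : Γℚ, Matrix.GeneralLinearGroup.det (ρ σ) = modThreeCyclotomicChar σ)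
    (hΨ : ∀ g, Matrix.GeneralLinearGroup.map red (Ψ g) = g)
    (N : ℕ) [NeZero N] (ε : DirichletCharacter ℂ N) (f : CuspForm (Gamma1 N) 1)
    (ι : ℤ√(-2) →+* ℂ)
    (hQ8 : ∀ p : ℕ, p.Prime → ¬ p ∣ 3 * N →
      ∀ A : ValuationSubring (AlgebraicClosure ℚ), A.LiesOverPrime p →
        ∀ σ : Γℚ, A.IsFrobeniusAt σ p →
          Matrix.GeneralLinearGroup.det (ρ σ) = 1 → (ρ σ) ^ 4 = 1 →
          qCoeff f p =
            ι (((Ψ (ρ σ) : GL (Fin 2) (ℤ√(-2))) : Matrix (Fin 2) (Fin 2) (ℤ√(-2))).trace))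
    (r : Γℚ →* GL (Fin 2) ℂ) (hr : GaloisFactorsThroughFiniteLevel r)
    (hrF : ∀ p : ℕ, p.Prime → ¬ p ∣ N →
      ∀ A : ValuationSubring (AlgebraicClosure ℚ), A.LiesOverPrime p →
        (∀ σ ∈ A.inertiaSubgroupIn ℚ, r σ = 1) ∧
        ∀ σ : Γℚ, A.IsFrobeniusAt σ p →
          ((r σ : GL (Fin 2) ℂ) : Matrix (Fin 2) (Fin 2) ℂ).trace = qCoeff f p ∧
          ((r σ : GL (Fin 2) ℂ) : Matrix (Fin 2) (Fin 2) ℂ).det = ε (p : ZMod N)) :
    ∃ s : ℂ, (s = 1 ∨ s = -1) ∧ ∀ p : ℕ, p.Prime → ¬ p ∣ 3 * N →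
      ∀ A : ValuationSubring (AlgebraicClosure ℚ), A.LiesOverPrime p →
        ∀ σ : Γℚ, A.IsFrobeniusAt σ p →
          qCoeff f p = wt_h701 s p *
            ι (((Ψ (ρ σ) : GL (Fin 2) (ℤ√(-2))) : Matrix (Fin 2) (Fin 2) (ℤ√(-2))).trace) ∧
          ε (p : ZMod N) = ((chiNegThree p : ℤ) : ℂ) := by
  have h3N : 3 * N ≠ 0 := mul_ne_zero (by norm_num) (NeZero.ne N)
  have hkρ : IsOpen (ρ.ker : Set Γℚ) := Fermat.Agent.Lib.Cheb.H956.isOpen_ker_of_continuous ρ hρ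
  have hkr : IsOpen (r.ker : Set Γℚ) := isOpen_ker_h701 r hr
  -- Chebotarev
  have hcheb : ∀ σ : Γℚ, ∃ (ℓ : ℕ) (A : ValuationSubring (AlgebraicClosure ℚ)) (τ : Γℚ),
      ℓ.Prime ∧ ¬ ℓ ∣ 3 * N ∧ A.LiesOverPrime ℓ ∧ A.IsFrobeniusAt τ ℓ ∧ r τ = r σ ∧
        ρ τ = ρ σ := by
    intro σ
    obtain ⟨ℓ, A, τ, hℓ, hℓS, hA, hτ, -, h1, h2⟩ :=
      Fermat.Agent.Lib.Cheb.H956.chebotarev_hom_pair Fermat.Agent.Lib.Cheb.chebotarev r ρ hkr hkρ
        σ (3 * N).primeFactors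
    refine ⟨ℓ, A, τ, hℓ, fun hd => hℓS ?_, hA, hτ, h1, h2⟩
    exact Nat.mem_primeFactors.mpr ⟨hℓ, hd, h3N⟩
  have hN_of : ∀ ℓ : ℕ, ¬ ℓ ∣ 3 * N → ¬ ℓ ∣ N := fun ℓ h hd => h (Dvd.dvd.mul_left hd 3)
  -- the trace identity on `ρ⁻¹(Q8)`
  have htrQ : ∀ σ : Γℚ, Matrix.GeneralLinearGroup.det (ρ σ) = 1 → (ρ σ) ^ 4 = 1 →
      ((r σ : GL (Fin 2) ℂ) : Matrix (Fin 2) (Fin 2) ℂ).trace =
        (rhom_h701 ι Ψ (ρ σ)).val.trace := by
    intro σ h1 h4
    obtain ⟨ℓ, A, τ, hℓ, hℓN, hA, hτ, e1, e2⟩ := hcheb σ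
    rw [trace_rhom_h701, ← e1, ← e2, ((hrF ℓ hℓ (hN_of ℓ hℓN) A hA).2 τ hτ).1]
    exact hQ8 ℓ hℓ hℓN A hA τ hτ (by rw [e2]; exact h1) (by rw [e2]; exact h4)
  -- the kernel of `ρ` is killed by `r`
  have hker : ∀ σ : Γℚ, ρ σ = 1 → r σ = 1 := by
    intro σ hσ
    obtain ⟨n, hn, hpow⟩ := exists_pow_eq_one_h701 r hr σ
    have ht := htrQ σ (by rw [hσ, map_one]) (by rw [hσ, one_pow])
    rw [hσ, map_one] at ht
    apply Units.ext
    apply eq_one_of_pow_h701 _ n hn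
    · rw [← Units.val_pow_eq_pow_val, hpow]
      rfl
    · rw [ht]
      simp [Matrix.trace, Fin.sum_univ_two]
  -- descent of `r` to `GL₂(𝔽₃)`
  let rbar : GL (Fin 2) (ZMod 3) →* GL (Fin 2) ℂ :=
    ρ.liftOfRightInverse (Function.surjInv hsurj) (Function.rightInverse_surjInv hsurj)
      ⟨r, fun σ hσ => MonoidHom.mem_ker.mpr (hker σ (MonoidHom.mem_ker.mp hσ))⟩
  have hrbar : ∀ σ : Γℚ, rbar (ρ σ) = r σ := fun σ =>
    ρ.liftOfRightInverse_comp_apply (Function.surjInv hsurj)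
      (Function.rightInverse_surjInv hsurj) _ σ
  have hR1 := rhom_neg_one_h701 Ψ hΨ ι
  -- `rbar (-1) = -1`
  have hrb1 : rbar (-1) = -1 := by
    obtain ⟨σ, hσ⟩ := hsurj (-1)
    have hZ : (rbar (-1)).val * (rbar (-1)).val = 1 := by
      rw [← Units.val_mul, ← map_mul, neg_one_sq_h701, map_one]
      rfl
    have ht := htrQ σ (by rw [hσ]; exact det_neg_one_h701) (by rw [hσ]; exact neg_one_pow_four_h701)
    rw [hσ, hR1, ← hrbar σ, hσ] at ht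
    apply Units.ext
    apply eq_neg_one_of_sq_h701 (two_ne_zero) _ hZ
    rw [ht]
    simp [Matrix.trace, Fin.sum_univ_two]
  obtain ⟨s, hs, hcore⟩ := core_h701 rbar (rhom_h701 ι Ψ) hrb1 hR1
  refine ⟨s, hs, fun p hp hpN A hA σ hσ => ?_⟩
  have hp3 : p ≠ 3 := fun h => hpN (h ▸ dvd_mul_right 3 N)
  have hcyc := modThree_frob_h701 hp hp3 A hA σ hσ
  rw [← hdet σ] at hcyc
  have hiff := unit_eq_one_iff_h701 _ p hcyc
  obtain ⟨hF1, hF2⟩ := (hrF p hp (hN_of p hpN) A hA).2 σ hσ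
  obtain ⟨hc1, hc2⟩ := hcore (ρ σ)
  rw [hrbar σ] at hc1 hc2
  constructor
  · rw [← hF1, hc1, trace_rhom_h701]
    unfold wt_h701
    by_cases h1 : Matrix.GeneralLinearGroup.det (ρ σ) = 1
    · rw [if_pos h1, if_pos (hiff.mp h1)]
    · rw [if_neg h1, if_neg (fun h => h1 (hiff.mpr h))]
  · rw [← hF2, hc2, det_rhom_h701 Ψ hΨ ι, chiNegThree_of_prime_h701 hp hp3]
    by_cases h1 : Matrix.GeneralLinearGroup.det (ρ σ) = 1
    · rw [if_pos h1, if_pos (hiff.mp h1)]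
    · rw [if_neg h1, if_neg (fun h => h1 (hiff.mpr h))]

end Fermat.Agent.LT.H701

end
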