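import Fermat.Agent.LT.H701.Gal
import Fermat.Agent.LT.H17.Board
import Fermat.Agent.S54.FrobExists
import Fermat.Prelude.Def_GaloisRep_Residual
import Fermat.Prelude.Def_Deformations_MatrixRepresentation

/-!
# Row LT, block IDENT (helper701): `LTB.IdentC` from the landed S48

`identC_of_s48_h701 : S48Statement_h701 → LTB.IdentC`, where `S48Statement_h701` is the frozen
statement S48 (Deligne--Serre) as a Prop, and `LTB.IdentC` is the frozen Prop of the board
`LT/H17/Board.lean` (helper17 @ c7612408b): hypotheses of S47 + output of the wall (a complex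
weight-one eigenform matching `Ψ ∘ ρ` at the Frobenius elements in `Q8`) imply the conclusion of
the frozen S47.

Chain: S48 gives `r`; Chebotarev (`Lib.Cheb`, on main) transports the trace identity to all of
`ρ⁻¹(Q8)`; `r` kills `ker ρ` (finite order + trace 2) and descends to `GL₂(𝔽₃)`;
`core_h701` (Schur/Clifford for `Q8 ◁ GL₂(𝔽₃)`): `r = (ι Ψ ρ) ⊗ χ`, `χ ∈ {1, χ₋₃}`;
`eigen_h701`: twist by `χ`, depletion at `3N`, integrality by the Hecke recursion.
-/

set_option autoImplicit false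

open Matrix FLT.ExplicitLift EisensteinWeightOne WeierstrassCurve CongruenceSubgroup
open ModularFormClass
open scoped MatrixGroups

noncomputable section

namespace Fermat.Agent.LT.H701

local notation "Γℚ" => (AlgebraicClosure ℚ ≃ₐ[ℚ] AlgebraicClosure ℚ)

/-- The frozen S48 (Deligne--Serre) as a Prop. -/
def S48Statement_h701 : Prop :=
  ∀ (N : ℕ) [NeZero N] (ε : DirichletCharacter ℂ N) (f : CuspForm (Gamma1 N) 1)
    (_ : ModularFormClass.qCoeff f 1 = 1)
    (_ : ∀ p : ℕ, p.Prime → ¬ p ∣ N → ∀ n : ℕ,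
        ModularFormClass.qCoeff f (p * n) +
            ε (p : ZMod N) * (if p ∣ n then ModularFormClass.qCoeff f (n / p) else 0) =
          ModularFormClass.qCoeff f p * ModularFormClass.qCoeff f n),
    ∃ ρ : Γℚ →* GL (Fin 2) ℂ, GaloisFactorsThroughFiniteLevel ρ ∧
      (Deformation.matrixRepresentation ρ).IsIrreducible ∧
      ∀ p : ℕ, p.Prime → ¬ p ∣ N →
        ∀ A : ValuationSubring (AlgebraicClosure ℚ), A.LiesOverPrime p →
          (∀ σ ∈ A.inertiaSubgroupIn ℚ, ρ σ = 1) ∧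
          ∀ σ : Γℚ, A.IsFrobeniusAt σ p →
            ((ρ σ : GL (Fin 2) ℂ) : Matrix (Fin 2) (Fin 2) ℂ).trace = ModularFormClass.qCoeff f p ∧
            ((ρ σ : GL (Fin 2) ℂ) : Matrix (Fin 2) (Fin 2) ℂ).det = ε (p : ZMod N)

theorem wt_ne_zero_h701 (s : ℂ) (hs : s = 1 ∨ s = -1) (p : ℕ) : wt_h701 s p ≠ 0 := by
  unfold wt_h701
  split_ifs
  · exact one_ne_zero
  · rcases hs with h | h <;> rw [h] <;> norm_num

/-- **IDENT**: the frozen Prop `LTB.IdentC` from the statement of S48. -/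
theorem identC_of_s48_h701 (h48 : S48Statement_h701) : LTB.IdentC := by
  classical
  intro ρ Ψ hyp hwall
  obtain ⟨N, hN, ε, f, ι, hf₁, hT, hQ8⟩ := hwall
  obtain ⟨r, hr, -, hrF⟩ := h48 N ε f hf₁ hT
  obtain ⟨s, hs, hgal⟩ :=
    gal_h701 ρ Ψ hyp.cont hyp.surj hyp.det hyp.lift N ε f ι hQ8 r hr hrF
  -- a Frobenius element at every prime
  have hfrob : ∀ p : ℕ, ∃ (A : ValuationSubring (AlgebraicClosure ℚ)) (σ : Γℚ),
      p.Prime → A.LiesOverPrime p ∧ A.IsFrobeniusAt σ p := by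
    intro p
    by_cases hp : p.Prime
    · obtain ⟨A, σ, hA, hσ⟩ := Fermat.Agent.S54.exists_frobenius p hp
      exact ⟨A, σ, fun _ => ⟨hA, hσ⟩⟩
    · exact ⟨⊤, 1, fun h => absurd h hp⟩
  choose Ap σp hAσ using hfrob
  let t : ℕ → ℤ√(-2) := fun p =>
    ((Ψ (ρ (σp p)) : GL (Fin 2) (ℤ√(-2))) : Matrix (Fin 2) (Fin 2) (ℤ√(-2))).trace
  have ht : ∀ p : ℕ, p.Prime → ¬ p ∣ 3 * N →
      qCoeff f p = wt_h701 s p * ι (t p) ∧ ε (p : ZMod N) = ((chiNegThree p : ℤ) : ℂ) :=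
    fun p hp hpN => hgal p hp hpN (Ap p) (hAσ p hp).1 (σp p) (hAσ p hp).2
  obtain ⟨c, heig, hreal, hc⟩ := eigen_h701 N ε f ι hf₁ hT s hs t ht
  have hN' : NeZero (N * (3 * N) ^ 2) :=
    ⟨mul_ne_zero (NeZero.ne N) (pow_ne_zero 2 (mul_ne_zero (by norm_num) (NeZero.ne N)))⟩
  refine ⟨N * (3 * N) ^ 2, hN', c, heig, hreal, fun p hp hpN' A hA σ hσ => ?_⟩
  have hpN : ¬ p ∣ 3 * N := fun hd =>
    hpN' (Dvd.dvd.mul_left (Dvd.dvd.mul_left (dvd_pow hd two_ne_zero) N) 3)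
  rw [hc p hp hpN]
  apply iota_injective_h701 ι
  have h1 := (ht p hp hpN).1
  have h2 := (hgal p hp hpN A hA σ hσ).1
  rw [h1] at h2
  exact mul_left_cancel₀ (wt_ne_zero_h701 s hs p) h2

end Fermat.Agent.LT.H701

end
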