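import Mathlib

/-!
# Row LT, block IDENT (helper701): linear algebra of `2 × 2` complex matrices

* `sq_eq_h701`: Cayley--Hamilton for `2 × 2` matrices.
* `eq_neg_one_of_sq_h701`: an involution of trace `-2` is `-1`.
* `eq_one_of_pow_h701`: a complex matrix of finite order and trace `2` is `1`.
* `exists_stdForm_h701`: a pair `A, B` with `A² = B² = -1`, `AB = -BA` is conjugate to the
  standard pair `D = diag(i, -i)`, `E = [[0, -1], [1, 0]]`.
* `scalar_of_commute_std_h701`: the commutant of the standard pair consists of scalars.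
-/

set_option autoImplicit false

open Matrix

namespace Fermat.Agent.LT.H701

/-- Cayley--Hamilton for `2 × 2` matrices. -/
theorem sq_eq_h701 {R : Type*} [CommRing R] (M : Matrix (Fin 2) (Fin 2) R) :
    M * M = M.trace • M - M.det • (1 : Matrix (Fin 2) (Fin 2) R) := by
  ext i j
  fin_cases i <;> fin_cases j <;>
    simp [Matrix.mul_apply, Fin.sum_univ_two, Matrix.trace, Matrix.det_fin_two] <;> ring

/-- An involution of trace `-2` is `-1`. -/
theorem eq_neg_one_of_sq_h701 {R : Type*} [CommRing R] [IsDomain R] (h2 : (2 : R) ≠ 0)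
    (Z : Matrix (Fin 2) (Fin 2) R) (hZ : Z * Z = 1) (ht : Z.trace = -2) : Z = -1 := by
  have hCH := sq_eq_h701 Z
  rw [hZ, ht] at hCH
  -- trace of both sides
  have htr := congrArg Matrix.trace hCH
  rw [Matrix.trace_sub, Matrix.trace_smul, Matrix.trace_smul, ht, Matrix.trace_one] at htr
  simp only [Fintype.card_fin, smul_eq_mul, Nat.cast_ofNat] at htr
  have hd : Z.det = 1 := by
    have h : (2 : R) * (Z.det - 1) = 0 := by linear_combination htr
    rcases mul_eq_zero.mp h with h | h
    · exact absurd h h2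
    · exact sub_eq_zero.mp h
  rw [hd] at hCH
  ext i j
  have hij := congrFun (congrFun hCH i) j
  simp only [Matrix.sub_apply, Matrix.smul_apply, smul_eq_mul, Matrix.neg_apply] at hij ⊢
  have h : (2 : R) * (Z i j + (1 : Matrix (Fin 2) (Fin 2) R) i j) = 0 := by
    linear_combination hij
  rcases mul_eq_zero.mp h with h | h
  · exact absurd h h2
  · exact eq_neg_of_add_eq_zero_left h

/-- The characteristic polynomial of a `2 × 2` matrix, evaluated. -/
theorem det_sub_smul_one_h701 {R : Type*} [CommRing R] (M : Matrix (Fin 2) (Fin 2) R) (x : R) :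
    (M - x • (1 : Matrix (Fin 2) (Fin 2) R)).det = x ^ 2 - M.trace * x + M.det := by
  simp [Matrix.det_fin_two, Matrix.trace, Fin.sum_univ_two]
  ring

/-- An eigenvalue of a matrix of finite order is a root of unity. -/
theorem pow_eq_one_of_det_h701 (a : Matrix (Fin 2) (Fin 2) ℂ) (n : ℕ) (ha : a ^ n = 1) (x : ℂ)
    (hx : (a - x • (1 : Matrix (Fin 2) (Fin 2) ℂ)).det = 0) : x ^ n = 1 := by
  obtain ⟨v, hv0, hv⟩ := Matrix.exists_mulVec_eq_zero_iff.mpr hx
  have hav : a *ᵥ v = x • v := by
    have : a *ᵥ v - x • v = 0 := by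
      rw [← hv, Matrix.sub_mulVec, Matrix.smul_mulVec, Matrix.one_mulVec]
    exact sub_eq_zero.mp this
  have hpow : ∀ k : ℕ, (a ^ k) *ᵥ v = x ^ k • v := by
    intro k
    induction k with
    | zero => simp
    | succ k ih =>
      rw [pow_succ, ← Matrix.mulVec_mulVec, hav, Matrix.mulVec_smul, ih, smul_smul, pow_succ,
        mul_comm]
  have h1 := hpow n
  rw [ha, Matrix.one_mulVec] at h1
  by_contra hne
  apply hv0
  have h2 : (x ^ n - 1) • v = 0 := by
    rw [sub_smul, one_smul, ← h1, sub_self]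
  rcases smul_eq_zero.mp h2 with h | h
  · exact absurd (sub_eq_zero.mp h) hne
  · exact h

/-- A complex number of norm one and real part at least one is one. -/
theorem eq_one_of_norm_h701 (z : ℂ) (hz : ‖z‖ = 1) (hre : 1 ≤ z.re) : z = 1 := by
  have h1 : z.re ^ 2 + z.im ^ 2 = 1 := by
    have := Complex.sq_norm z
    rw [hz, Complex.normSq_apply] at this
    nlinarith [this]
  have hre' : z.re = 1 := by nlinarith [sq_nonneg z.im]
  have him : z.im = 0 := by
    have : z.im ^ 2 = 0 := by rw [hre'] at h1; linarith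
    exact pow_eq_zero_iff (two_ne_zero) |>.mp this
  exact Complex.ext (by simp [hre']) (by simp [him])

/-- A complex `2 × 2` matrix of finite order and trace `2` is the identity. -/
theorem eq_one_of_pow_h701 (a : Matrix (Fin 2) (Fin 2) ℂ) (n : ℕ) (hn : 0 < n) (ha : a ^ n = 1)
    (ht : a.trace = 2) : a = 1 := by
  obtain ⟨w, hw⟩ := IsAlgClosed.exists_pow_nat_eq (1 - a.det) (n := 2) (by norm_num)
  have hα : (1 + w) ^ n = 1 := by
    apply pow_eq_one_of_det_h701 a n ha
    rw [det_sub_smul_one_h701, ht]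
    linear_combination hw
  have hβ : (1 - w) ^ n = 1 := by
    apply pow_eq_one_of_det_h701 a n ha
    rw [det_sub_smul_one_h701, ht]
    linear_combination hw
  have hnα : ‖1 + w‖ = 1 := Complex.norm_eq_one_of_pow_eq_one hα hn.ne'
  have hnβ : ‖1 - w‖ = 1 := Complex.norm_eq_one_of_pow_eq_one hβ hn.ne'
  have hreα : (1 + w).re ≤ 1 := (Complex.re_le_norm _).trans hnα.le
  have hreβ : (1 - w).re ≤ 1 := (Complex.re_le_norm _).trans hnβ.le
  have hsum : (1 + w).re + (1 - w).re = 2 := by
    simp only [Complex.add_re, Complex.sub_re, Complex.one_re]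
    ring
  have hα1 : 1 + w = 1 := eq_one_of_norm_h701 _ hnα (by linarith)
  have hw0 : w = 0 := by simpa using hα1
  have hd : a.det = 1 := by
    rw [hw0] at hw
    have : (1 : ℂ) - a.det = 0 := by rw [← hw]; norm_num
    exact (sub_eq_zero.mp this).symm
  -- `(a - 1)² = 0`
  obtain ⟨N, hN⟩ : ∃ N : Matrix (Fin 2) (Fin 2) ℂ, N = a - 1 := ⟨_, rfl⟩
  have ha' : a = 1 + N := by rw [hN]; abel
  have hNN : N * N = 0 := by
    have hCH := sq_eq_h701 a
    rw [ht, hd] at hCH
    rw [hN, sub_mul, mul_sub, mul_sub, Matrix.one_mul, Matrix.mul_one, Matrix.mul_one, hCH]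
    rw [two_smul, one_smul]
    abel
  have hpow : ∀ k : ℕ, a ^ k = 1 + (k : ℂ) • N := by
    intro k
    induction k with
    | zero => simp
    | succ k ih =>
      rw [pow_succ, ih]
      conv_lhs => rw [ha']
      rw [mul_add, mul_one, add_mul, one_mul, Matrix.smul_mul, hNN, smul_zero,
        add_zero, Nat.cast_succ, add_smul, one_smul]
      abel
  have h1 := hpow n
  rw [ha] at h1
  have h2 : (n : ℂ) • N = 0 := by
    have := h1.symm
    rwa [add_eq_left] at this
  have hN0 : N = 0 := by
    rcases smul_eq_zero.mp h2 with h | h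
    · exact absurd h (Nat.cast_ne_zero.mpr hn.ne')
    · exact h
  rw [hN] at hN0
  exact sub_eq_zero.mp hN0

/-- The standard diagonal matrix `diag(i, -i)`. -/
noncomputable def stdD_h701 : Matrix (Fin 2) (Fin 2) ℂ := !![Complex.I, 0; 0, -Complex.I]

/-- The standard matrix `[[0, -1], [1, 0]]`. -/
def stdE_h701 : Matrix (Fin 2) (Fin 2) ℂ := !![0, -1; 1, 0]

/-- The matrix with columns `v`, `w`. -/
def colMat_h701 (v w : Fin 2 → ℂ) : Matrix (Fin 2) (Fin 2) ℂ :=
  Matrix.of fun l m => if m = 0 then v l else w l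

theorem colMat_mulVec_h701 (v w c : Fin 2 → ℂ) :
    colMat_h701 v w *ᵥ c = c 0 • v + c 1 • w := by
  ext l
  simp [colMat_h701, Matrix.mulVec, dotProduct, Fin.sum_univ_two, mul_comm]

theorem mul_colMat_h701 (M : Matrix (Fin 2) (Fin 2) ℂ) (v w : Fin 2 → ℂ) :
    M * colMat_h701 v w = colMat_h701 (M *ᵥ v) (M *ᵥ w) := by
  ext l m
  fin_cases m <;>
    simp [colMat_h701, Matrix.mul_apply, Matrix.mulVec, dotProduct, Fin.sum_univ_two]

theorem colMat_mul_stdD_h701 (v w : Fin 2 → ℂ) :
    colMat_h701 v w * stdD_h701 = colMat_h701 (Complex.I • v) (-Complex.I • w) := by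
  ext l m
  fin_cases m <;>
    simp [colMat_h701, stdD_h701, Matrix.mul_apply, Fin.sum_univ_two, mul_comm]

theorem colMat_mul_stdE_h701 (v w : Fin 2 → ℂ) :
    colMat_h701 v w * stdE_h701 = colMat_h701 w (-v) := by
  ext l m
  fin_cases m <;>
    simp [colMat_h701, stdE_h701, Matrix.mul_apply, Fin.sum_univ_two]

/-- A pair of complex `2 × 2` matrices satisfying the quaternion relations is conjugate to the
standard pair. -/
theorem exists_stdForm_h701 (A B : Matrix (Fin 2) (Fin 2) ℂ) (hA : A * A = -1)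
    (hB : B * B = -1) (hAB : A * B = -(B * A)) :
    ∃ P : Matrix (Fin 2) (Fin 2) ℂ, P.det ≠ 0 ∧ A * P = P * stdD_h701 ∧
      B * P = P * stdE_h701 := by
  -- `A + i ≠ 0`
  have hne : A + Complex.I • (1 : Matrix (Fin 2) (Fin 2) ℂ) ≠ 0 := by
    intro h
    have hAeq : A = -(Complex.I • (1 : Matrix (Fin 2) (Fin 2) ℂ)) := eq_neg_of_add_eq_zero_left h
    have h1 : A * B = B * A := by
      rw [hAeq]
      simp
    have h2 : (2 : ℂ) • (B * A) = 0 := by
      rw [two_smul]
      nth_rewrite 1 [← h1]
      rw [hAB]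
      simp
    have h3 : B * A = 0 := by
      rcases smul_eq_zero.mp h2 with h | h
      · exact absurd h two_ne_zero
      · exact h
    have h4 : B * A * A = 0 := by rw [h3, Matrix.zero_mul]
    rw [Matrix.mul_assoc, hA] at h4
    have h5 : B = 0 := by simpa using h4
    rw [h5, Matrix.zero_mul] at hB
    have := congrFun (congrFun hB 0) 0
    simp at this
  -- a nonzero column
  obtain ⟨k, hk⟩ : ∃ k : Fin 2,
      (A + Complex.I • (1 : Matrix (Fin 2) (Fin 2) ℂ)) *ᵥ (Pi.single k 1) ≠ 0 := by
    by_contra hcon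
    simp only [not_exists, not_not] at hcon
    apply hne
    ext l m
    have := congrFun (hcon m) l
    simpa [Matrix.mulVec_single_one] using this
  set v : Fin 2 → ℂ := (A + Complex.I • (1 : Matrix (Fin 2) (Fin 2) ℂ)) *ᵥ (Pi.single k 1)
    with hv
  have hAv : A *ᵥ v = Complex.I • v := by
    have h0 : (A - Complex.I • (1 : Matrix (Fin 2) (Fin 2) ℂ)) *
        (A + Complex.I • (1 : Matrix (Fin 2) (Fin 2) ℂ)) = 0 := by
      rw [sub_mul, mul_add, mul_add, hA]
      simp only [Matrix.mul_smul, Matrix.smul_mul, Matrix.mul_one, Matrix.one_mul, smul_smul,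
        Complex.I_mul_I]
      rw [neg_smul, one_smul]
      abel
    have h1 : (A - Complex.I • (1 : Matrix (Fin 2) (Fin 2) ℂ)) *ᵥ v = 0 := by
      rw [hv, Matrix.mulVec_mulVec, h0, Matrix.zero_mulVec]
    rw [Matrix.sub_mulVec, Matrix.smul_mulVec, Matrix.one_mulVec] at h1
    exact sub_eq_zero.mp h1
  set w : Fin 2 → ℂ := B *ᵥ v with hw
  have hAw : A *ᵥ w = -Complex.I • w := by
    rw [hw, Matrix.mulVec_mulVec, hAB, Matrix.neg_mulVec, ← Matrix.mulVec_mulVec, hAv,
      Matrix.mulVec_smul, neg_smul]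
  have hBw : B *ᵥ w = -v := by
    rw [hw, Matrix.mulVec_mulVec, hB, Matrix.neg_mulVec, Matrix.one_mulVec]
  refine ⟨colMat_h701 v w, ?_, ?_, ?_⟩
  · intro hdet
    obtain ⟨c, hc0, hc⟩ := Matrix.exists_mulVec_eq_zero_iff.mpr hdet
    rw [colMat_mulVec_h701] at hc
    have hc' : A *ᵥ (c 0 • v + c 1 • w) = 0 := by rw [hc, Matrix.mulVec_zero]
    rw [Matrix.mulVec_add, Matrix.mulVec_smul, Matrix.mulVec_smul, hAv, hAw] at hc'
    have h1 : (2 * c 0) • v = 0 := by
      have e : (2 * c 0) • v =
          (c 0 • v + c 1 • w) + (-Complex.I) • (c 0 • Complex.I • v + c 1 • -Complex.I • w) := by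
        ext l
        simp only [Pi.add_apply, Pi.smul_apply, smul_eq_mul]
        linear_combination (c 0 * v l - c 1 * w l) * Complex.I_mul_I
      rw [e, hc, hc']
      simp
    have hc00 : c 0 = 0 := by
      rcases smul_eq_zero.mp h1 with h | h
      · rcases mul_eq_zero.mp h with h | h
        · exact absurd h two_ne_zero
        · exact h
      · exact absurd h hk
    rw [hc00, zero_smul, zero_add] at hc
    have hc1 : c 1 ≠ 0 := by
      intro h
      apply hc0
      ext l
      fin_cases l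
      · exact hc00
      · exact h
    have hw0 : w = 0 := by
      rcases smul_eq_zero.mp hc with h | h
      · exact absurd h hc1
      · exact h
    rw [hw0, Matrix.mulVec_zero] at hBw
    exact hk (neg_eq_zero.mp hBw.symm)
  · rw [mul_colMat_h701, colMat_mul_stdD_h701, hAv, hAw]
  · rw [mul_colMat_h701, colMat_mul_stdE_h701, hBw]

/-- The commutant of the standard pair consists of scalar matrices. -/
theorem scalar_of_commute_std_h701 (X : Matrix (Fin 2) (Fin 2) ℂ)
    (hD : X * stdD_h701 = stdD_h701 * X) (hE : X * stdE_h701 = stdE_h701 * X) :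
    X = X 0 0 • (1 : Matrix (Fin 2) (Fin 2) ℂ) := by
  have hI : Complex.I ≠ 0 := Complex.I_ne_zero
  have h01 := congrFun (congrFun hD 0) 1
  have h10 := congrFun (congrFun hD 1) 0
  have e01 := congrFun (congrFun hE 0) 1
  simp [stdD_h701, stdE_h701, Matrix.mul_apply, Fin.sum_univ_two] at h01 h10 e01
  have hX01 : X 0 1 = 0 := by
    have : (2 * Complex.I) * X 0 1 = 0 := by linear_combination -h01
    rcases mul_eq_zero.mp this with h | h
    · exact absurd h (mul_ne_zero two_ne_zero hI)
    · exact h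
  have hX10 : X 1 0 = 0 := by
    have : (2 * Complex.I) * X 1 0 = 0 := by linear_combination h10
    rcases mul_eq_zero.mp this with h | h
    · exact absurd h (mul_ne_zero two_ne_zero hI)
    · exact h
  ext l m
  fin_cases l <;> fin_cases m <;> simp [hX01, hX10]
  exact e01.symm


end Fermat.Agent.LT.H701
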